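-- Statement S18 (row 17): a point of `J₀(N)` killed by `m` prime to `ℓ` with zero reduction is zero.
-- Proof: package A (`Fermat/Agent/S18/A/Top.lean`) from the core claim `s18_core`.
import Fermat.Statements.S18
import Fermat.Agent.S18.A.Top

set_option autoImplicit false
open ModularCurve

namespace Fermat.Agent.S18

theorem result (N : ℕ) [NeZero N] {ℓ : ℕ}
    [Fact ℓ.Prime] (hℓN : ¬ ℓ ∣ N) (A : ValuationSubring (AlgebraicClosure ℚ)) (hA : A.LiesOverPrime ℓ)
    (h : ModularCurve.ReductionInputsModL A N) (m : ℕ) (hm : ¬ ℓ ∣ m) (z : ModularCurve.JZero N)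
    (hmz : m • z = 0) (hz : ModularCurve.reductionModL A N z = 0) :
    z = 0 :=
  s18a_main hℓN hA h m hm z hmz hz

end Fermat.Agent.S18
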