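-- Statement S20 (row 19): dim S_2(Gamma0 N) = genusFormula N.
import Fermat.Statements.S20
import Fermat.Agent.S21.Assembly
import Fermat.Agent.S20.LowerBound

set_option autoImplicit false
open CuspForm

namespace Fermat.Agent.S20

theorem result (N : ℕ) [NeZero N] :
    (Module.finrank ℂ (CuspForm (CongruenceSubgroup.Gamma0 N) 2) : ℚ) = ModularCurve.genusFormula N :=
  le_antisymm (Fermat.Agent.S21.finrank_cuspForm_le_genusFormula N)
    (Fermat.Agent.S20.genusFormula_le_finrank_cuspForm N)

end Fermat.Agent.S20
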