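import Fermat.Statements.S02

set_option autoImplicit false
open FreyPackage

namespace Fermat.Agent.S02

theorem odd_neg_pow (p : ℕ) (hp : Odd p) (x : ℤ) : (-x) ^ p = -(x ^ p) :=
  hp.neg_pow x

theorem int_mod_four_of_odd (a : ℤ) (h : a % 2 = 1) : a % 4 = 1 ∨ a % 4 = 3 := by
  omega

theorem zmod4_eq_three (a : ℤ) (h : a % 4 = 3) : (a : ZMod 4) = 3 := by
  have h2 : ((3 : ℤ) : ZMod 4) = 3 := by norm_cast
  rw [← h2, ZMod.intCast_eq_intCast_iff_dvd_sub]
  omega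

theorem zmod2_eq_zero (b : ℤ) (h : b % 2 = 0) : (b : ZMod 2) = 0 := by
  rw [ZMod.intCast_zmod_eq_zero_iff_dvd]
  exact Int.dvd_of_emod_eq_zero h

/-- Case: `a` odd, `b` even, coprime. -/
theorem caseA (a b c : ℤ) (ha : a ≠ 0) (hb : b ≠ 0) (hc : c ≠ 0) (p : ℕ) (pp : p.Prime)
    (hp5 : 5 ≤ p) (H : a ^ p + b ^ p = c ^ p) (hab : gcd a b = 1)
    (ha2 : a % 2 = 1) (hb2 : b % 2 = 0) : Nonempty FreyPackage := by
  have hp_odd : Odd p := pp.odd_of_ne_two (by omega)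
  rcases int_mod_four_of_odd a ha2 with h | h
  · refine ⟨⟨-a, -b, -c, neg_ne_zero.2 ha, neg_ne_zero.2 hb, neg_ne_zero.2 hc, p, pp, hp5, ?_, ?_,
      ?_, ?_⟩⟩
    · rw [odd_neg_pow p hp_odd, odd_neg_pow p hp_odd, odd_neg_pow p hp_odd, ← H]; ring
    · rw [gcd_neg, neg_gcd]; exact hab
    · apply zmod4_eq_three; omega
    · apply zmod2_eq_zero; omega
  · exact ⟨⟨a, b, c, ha, hb, hc, p, pp, hp5, H, hab, zmod4_eq_three a h, zmod2_eq_zero b hb2⟩⟩

theorem not_both_even (a b : ℤ) (hab : gcd a b = 1) (ha2 : a % 2 = 0) (hb2 : b % 2 = 0) :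
    False := by
  have h1 : (2 : ℤ) ∣ a := Int.dvd_of_emod_eq_zero ha2
  have h2 : (2 : ℤ) ∣ b := Int.dvd_of_emod_eq_zero hb2
  have h3 : (2 : ℤ) ∣ gcd a b := dvd_gcd h1 h2
  rw [hab] at h3
  omega

theorem pow_mod_two (x : ℤ) (p : ℕ) (hp : p ≠ 0) : x ^ p % 2 = x % 2 := by
  rcases Int.emod_two_eq_zero_or_one x with h | h
  · rw [h]
    have : (2 : ℤ) ∣ x ^ p := dvd_pow (Int.dvd_of_emod_eq_zero h) hp
    omega
  · rw [h]
    have hodd : Odd x := Int.odd_iff.2 h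
    exact Int.odd_iff.1 (hodd.pow)

/-- Case: coprime. -/
theorem caseB (a b c : ℤ) (ha : a ≠ 0) (hb : b ≠ 0) (hc : c ≠ 0) (p : ℕ) (pp : p.Prime)
    (hp5 : 5 ≤ p) (H : a ^ p + b ^ p = c ^ p) (hab : gcd a b = 1) : Nonempty FreyPackage := by
  have hp_odd : Odd p := pp.odd_of_ne_two (by omega)
  have hp0 : p ≠ 0 := by omega
  have hppos : 0 < p := by omega
  rcases Int.emod_two_eq_zero_or_one b with hb2 | hb2
  · rcases Int.emod_two_eq_zero_or_one a with ha2 | ha2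
    · exact (not_both_even a b hab ha2 hb2).elim
    · exact caseA a b c ha hb hc p pp hp5 H hab ha2 hb2
  · rcases Int.emod_two_eq_zero_or_one a with ha2 | ha2
    · refine caseA b a c hb ha hc p pp hp5 (by rw [add_comm]; exact H) ?_ hb2 ha2
      rw [gcd_comm]; exact hab
    · -- both odd, so c even
      have hc2 : c % 2 = 0 := by
        have h1 := pow_mod_two a p hp0
        have h2 := pow_mod_two b p hp0
        have h3 := pow_mod_two c p hp0
        rw [← H] at h3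
        omega
      have hac : gcd a c = 1 := by
        rw [← gcdab_eq_gcdac hppos H]; exact hab
      refine caseA a (-c) (-b) ha (neg_ne_zero.2 hc) (neg_ne_zero.2 hb) p pp hp5 ?_ ?_ ha2 ?_
      · rw [odd_neg_pow p hp_odd, odd_neg_pow p hp_odd, ← H]; ring
      · rw [gcd_neg]; exact hac
      · omega

theorem result (a b c : ℤ) (ha : a ≠ 0) (hb : b ≠ 0) (hc : c ≠ 0) (p : ℕ) (pp : p.Prime) (hp5 : 5 ≤ p) (H : a ^ p + b ^ p = c ^ p) : Nonempty FreyPackage := by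
  have hp0 : p ≠ 0 := by omega
  have hdpos : 0 < Int.gcd a b := Int.gcd_pos_of_ne_zero_left b ha
  obtain ⟨a', b', hcop, ha', hb'⟩ := Int.exists_gcd_one hdpos
  set d : ℤ := ((Int.gcd a b : ℕ) : ℤ) with hd
  have hd0 : d ≠ 0 := by
    have : (0 : ℤ) < d := by rw [hd]; exact_mod_cast hdpos
    exact this.ne'
  have hdc : d ∣ c := by
    rw [← Int.pow_dvd_pow_iff hp0, ← H]
    apply dvd_add <;> rw [Int.pow_dvd_pow_iff hp0]
    · exact ⟨a', by rw [mul_comm]; exact ha'⟩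
    · exact ⟨b', by rw [mul_comm]; exact hb'⟩
  obtain ⟨c', hc'⟩ := hdc
  have ha'0 : a' ≠ 0 := by
    rintro rfl
    exact ha (by rw [ha']; ring)
  have hb'0 : b' ≠ 0 := by
    rintro rfl
    exact hb (by rw [hb']; ring)
  have hc'0 : c' ≠ 0 := by
    rintro rfl
    exact hc (by rw [hc']; ring)
  have H' : a' ^ p + b' ^ p = c' ^ p := by
    have hdp : d ^ p ≠ 0 := pow_ne_zero p hd0
    apply mul_left_cancel₀ hdp
    rw [ha', hb', hc'] at H
    rw [mul_pow, mul_pow, mul_pow] at H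
    rw [mul_add, ← H]; ring
  have hcop' : gcd a' b' = 1 := by
    rw [← Int.coe_gcd, hcop]; rfl
  exact caseB a' b' c' ha'0 hb'0 hc'0 p pp hp5 H' hcop'

end Fermat.Agent.S02
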