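import Fermat.Statements.S05
import Fermat.Agent.S05.LegendreUnram

set_option autoImplicit false
open WeierstrassCurve WeierstrassCurve.Affine WeierstrassCurve.Affine.Point
open CuspForm ModularFormClass UpperHalfPlane
open FreyPackage

namespace Fermat.Agent.S05

lemma frey_not_dvd_both {a b : ℤ} (h : gcd a b = 1) {q : ℕ} (hq : q.Prime) (ha : (q : ℤ) ∣ a)
    (hb : (q : ℤ) ∣ b) : False := by
  have h1 : (q : ℤ) ∣ gcd a b := dvd_gcd ha hb
  rw [h] at h1
  have : q ∣ 1 := by exact_mod_cast h1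
  exact hq.one_lt.ne' (Nat.dvd_one.1 this)

theorem result (P : FreyPackage) {q : ℕ} (hq : q.Prime) (hq2 : q ≠ 2) (hqp : q ≠ P.p) : P.GaloisRepUnramifiedAt q := by
  have hqZ : Prime (q : ℤ) := Nat.prime_iff_prime_int.1 hq
  have hnp : ¬ q ∣ P.p := fun h => hqp ((Nat.prime_dvd_prime_iff_eq hq P.pp).1 h)
  have hFLT : P.a ^ P.p + P.b ^ P.p = P.c ^ P.p := P.hFLT
  by_cases hab : (q : ℤ) ∣ P.a * P.b
  · -- the node is at the origin of the Legendre model
    rw [freyPackage_unramifiedAt_iff_legendre]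
    have hA : ((P.a : ℚ) ^ P.p) = ((P.a ^ P.p : ℤ) : ℚ) := by push_cast; rfl
    have hB : ((P.b : ℚ) ^ P.p) = ((P.b ^ P.p : ℤ) : ℚ) := by push_cast; rfl
    rw [hA, hB]
    refine legendre_unramified_mult (P.a ^ P.p) (P.b ^ P.p) hq hq2 hnp ?_ ?_ (-1) (P.a * P.b)
      ?_ ?_ (mul_ne_zero P.ha0 P.hb0)
    · intro hdvd
      rcases hqZ.dvd_or_dvd hab with ha | hb
      · have hb : (q : ℤ) ∣ P.b ^ P.p := by
          have := dvd_add hdvd (dvd_pow ha P.hp0)
          simpa using this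
        exact frey_not_dvd_both P.hgcdab hq ha (hqZ.dvd_of_dvd_pow hb)
      · have ha : (q : ℤ) ∣ P.a ^ P.p := by
          have := dvd_sub (dvd_pow hb P.hp0) hdvd
          simpa using this
        exact frey_not_dvd_both P.hgcdab hq (hqZ.dvd_of_dvd_pow ha) hb
    · rw [← mul_pow]
      exact dvd_pow hab P.hp0
    · intro hdvd
      have : (q : ℤ) ∣ 1 := by simpa using hdvd
      have : q ∣ 1 := by exact_mod_cast this
      exact hq.one_lt.ne' (Nat.dvd_one.1 this)
    · rw [mul_pow]; ring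
  · by_cases hc : (q : ℤ) ∣ P.c
    · -- translate the colliding `2`-torsion point to the origin
      rw [freyPackage_unramifiedAt_iff_legendre_translate]
      have hA : (-(P.a : ℚ) ^ P.p) = ((-(P.a ^ P.p) : ℤ) : ℚ) := by push_cast; rfl
      have hC : ((P.c : ℚ) ^ P.p) = ((P.c ^ P.p : ℤ) : ℚ) := by push_cast; rfl
      rw [hA, hC]
      have hna : ¬ (q : ℤ) ∣ P.a := fun ha => hab (dvd_mul_of_dvd_left ha _)
      refine legendre_unramified_mult (-(P.a ^ P.p)) (P.c ^ P.p) hq hq2 hnp ?_ ?_ 1 (P.a * P.c)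
        ?_ ?_ (mul_ne_zero P.ha0 P.hc0)
      · intro hdvd
        have ha : (q : ℤ) ∣ P.a ^ P.p := by
          have := dvd_sub hdvd (dvd_pow hc P.hp0)
          simpa using this
        exact hna (hqZ.dvd_of_dvd_pow ha)
      · exact dvd_mul_of_dvd_right (dvd_pow hc P.hp0) _
      · intro hdvd
        have : q ∣ 1 := by exact_mod_cast hdvd
        exact hq.one_lt.ne' (Nat.dvd_one.1 this)
      · rw [mul_pow]; ring
    · -- good reduction
      rw [freyPackage_unramifiedAt_iff_legendre]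
      have hA : ((P.a : ℚ) ^ P.p) = ((P.a ^ P.p : ℤ) : ℚ) := by push_cast; rfl
      have hB : ((P.b : ℚ) ^ P.p) = ((P.b ^ P.p : ℤ) : ℚ) := by push_cast; rfl
      rw [hA, hB]
      refine legendre_unramified_good (P.a ^ P.p) (P.b ^ P.p) hq hq2 hnp ?_
      intro hdvd
      rw [hFLT, ← mul_pow, ← mul_pow] at hdvd
      have := hqZ.dvd_of_dvd_pow hdvd
      rcases hqZ.dvd_or_dvd this with h | h
      · exact hab h
      · exact hc h

end Fermat.Agent.S05
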