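import Fermat.Statements.S07
import Fermat.Prelude.Thm_ModularForm_sturm_bound_Gamma0
import Fermat.Prelude.Thm_CongruenceSubgroup_one_mem_strictPeriods_Gamma0

set_option autoImplicit false
open WeierstrassCurve WeierstrassCurve.Affine WeierstrassCurve.Affine.Point
open CuspForm ModularFormClass UpperHalfPlane
open ModularForm

namespace Fermat.Agent.S07

open Matrix Matrix.SpecialLinearGroup in
theorem index_Gamma0_two_le : (CongruenceSubgroup.Gamma0 2).index ≤ 4 := by
  classical
  let col : Matrix.SpecialLinearGroup (Fin 2) ℤ → ZMod 2 × ZMod 2 :=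
    fun g => ((g 0 0 : ZMod 2), (g 1 0 : ZMod 2))
  have key : ∀ a b : Matrix.SpecialLinearGroup (Fin 2) ℤ,
      col a = col b → a⁻¹ * b ∈ CongruenceSubgroup.Gamma0 2 := by
    intro a b hab
    rw [CongruenceSubgroup.Gamma0_mem]
    simp only [col, Prod.mk.injEq] at hab
    obtain ⟨h0, h1⟩ := hab
    have h := (Matrix.two_mul_expl (a⁻¹).1 b.1).2.2.1
    simp only [Matrix.SpecialLinearGroup.coe_mul]
    rw [h, Matrix.SpecialLinearGroup.SL2_inv_expl a]
    simp only [Matrix.cons_val', Matrix.cons_val_zero, Matrix.cons_val_one,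
      Matrix.cons_val_fin_one, Matrix.empty_val', Int.cast_add, Int.cast_mul, Int.cast_neg]
    rw [← h0, ← h1]
    ring
  have hinj : Function.Injective (fun q : Matrix.SpecialLinearGroup (Fin 2) ℤ ⧸
      CongruenceSubgroup.Gamma0 2 => col q.out) := by
    intro q1 q2 h
    have := key _ _ h
    rw [← QuotientGroup.out_eq' q1, ← QuotientGroup.out_eq' q2]
    exact QuotientGroup.eq.mpr this
  have := Nat.card_le_card_of_injective _ hinj
  rw [Subgroup.index]
  calc Nat.card _ ≤ Nat.card (ZMod 2 × ZMod 2) := this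
    _ = 4 := by simp

theorem result (f : CuspForm (CongruenceSubgroup.Gamma0 2) 2) : f = 0 := by
  have hg : (ModularFormClass.modularForm f : ModularForm (CongruenceSubgroup.Gamma0 2) 2) = 0 := by
    apply ModularForm.sturm_bound_Gamma0 2
    intro n hn
    have hn0 : n = 0 := by
      have h4 := index_Gamma0_two_le
      have : ((2 : ℤ) * ((CongruenceSubgroup.Gamma0 2).index : ℤ)).toNat ≤ 8 := by
        omega
      omega
    subst hn0
    exact CuspFormClass.qExpansion_coeff_zero f one_pos
      (CongruenceSubgroup.one_mem_strictPeriods_Gamma0 2)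
  ext z
  exact congrArg (fun h : ModularForm (CongruenceSubgroup.Gamma0 2) 2 => h z) hg

end Fermat.Agent.S07
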