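import Fermat.Statements.S10
import Fermat.Agent.S11.CaseI
import Fermat.Agent.S11.CaseII
import Fermat.Agent.S11.PID
import Fermat.Agent.S11.KummerLemma

set_option autoImplicit false
open WeierstrassCurve WeierstrassCurve.Affine WeierstrassCurve.Affine.Point
open CuspForm ModularFormClass UpperHalfPlane
open FreyPackage

namespace Fermat.Agent.S10

open Fermat.Agent.S11

open NumberField in
/-- A Frey package gives a coprime nontrivial solution of the Fermat equation. -/
theorem freyPackage_sol (P : FreyPackage) :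
    IsCoprime P.a P.b ∧ P.a * P.b * P.c ≠ 0 ∧ P.a ^ P.p + P.b ^ P.p = P.c ^ P.p := by
  refine ⟨?_, mul_ne_zero (mul_ne_zero P.ha0 P.hb0) P.hc0, P.hFLT⟩
  rw [Int.isCoprime_iff_gcd_eq_one]
  have h2 : ((Int.gcd P.a P.b : ℕ) : ℤ) = 1 := by
    rw [Int.coe_gcd]; exact P.hgcdab
  exact_mod_cast h2

open NumberField in
/-- There is no Frey package with exponent `5`. -/
theorem no_freyPackage_five (P : FreyPackage) (hp : P.p = 5) : False := by
  have : Fact (Nat.Prime 5) := ⟨by norm_num⟩
  have : IsCyclotomicExtension {5} ℚ (CyclotomicField 5 ℚ) :=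
    CyclotomicField.isCyclotomicExtension 5 ℚ
  have : IsPrincipalIdealRing (𝓞 (CyclotomicField 5 ℚ)) :=
    IsCyclotomicExtension.Rat.five_pid _
  obtain ⟨hab, habc, h⟩ := freyPackage_sol P
  rw [hp] at h
  exact flt_of_caseI (p := 5) caseI_five (by decide) (CyclotomicField 5 ℚ)
    (fun u hu => kummer_lemma_of_pid (by decide) u hu) hab habc h

open NumberField in
/-- There is no Frey package with exponent `7`. -/
theorem no_freyPackage_seven (P : FreyPackage) (hp : P.p = 7) : False := by
  have : Fact (Nat.Prime 7) := ⟨by norm_num⟩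
  have : IsCyclotomicExtension {7} ℚ (CyclotomicField 7 ℚ) :=
    CyclotomicField.isCyclotomicExtension 7 ℚ
  have : IsPrincipalIdealRing (𝓞 (CyclotomicField 7 ℚ)) := seven_pid _
  obtain ⟨hab, habc, h⟩ := freyPackage_sol P
  rw [hp] at h
  exact flt_of_caseI (p := 7) caseI_seven (by decide) (CyclotomicField 7 ℚ)
    (fun u hu => kummer_lemma_of_pid (by decide) u hu) hab habc h

open NumberField in
/-- There is no Frey package with exponent `13`. -/
theorem no_freyPackage_thirteen (P : FreyPackage) (hp : P.p = 13) : False := by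
  have : Fact (Nat.Prime 13) := ⟨by norm_num⟩
  have : IsCyclotomicExtension {13} ℚ (CyclotomicField 13 ℚ) :=
    CyclotomicField.isCyclotomicExtension 13 ℚ
  have : IsPrincipalIdealRing (𝓞 (CyclotomicField 13 ℚ)) := thirteen_pid _
  obtain ⟨hab, habc, h⟩ := freyPackage_sol P
  rw [hp] at h
  exact flt_of_caseI (p := 13) caseI_thirteen (by decide) (CyclotomicField 13 ℚ)
    (fun u hu => kummer_lemma_of_pid (by decide) u hu) hab habc h

theorem result (P : FreyPackage) (hp : P.p = 5 ∨ P.p = 7 ∨ P.p = 13) : ¬ HasGaloisStableCofixedLine (K := AlgebraicClosure ℚ) ℚ P.freyCurve P.p := by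
  intro _
  rcases hp with hp | hp | hp
  · exact no_freyPackage_five P hp
  · exact no_freyPackage_seven P hp
  · exact no_freyPackage_thirteen P hp

end Fermat.Agent.S10
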