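import Fermat.Statements.S11
import Fermat.Agent.S11.CaseI
import Fermat.Agent.S11.CaseII
import Fermat.Agent.S11.PID
import Fermat.Agent.S11.KummerLemma

set_option autoImplicit false
open WeierstrassCurve WeierstrassCurve.Affine WeierstrassCurve.Affine.Point
open CuspForm ModularFormClass UpperHalfPlane
open FreyPackage

namespace Fermat.Agent.S11

open NumberField in
/-- A Frey package gives a coprime nontrivial solution of the Fermat equation. -/
theorem freyPackage_data (P : FreyPackage) :
    IsCoprime P.a P.b ∧ P.a * P.b * P.c ≠ 0 ∧ P.a ^ P.p + P.b ^ P.p = P.c ^ P.p := by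
  refine ⟨?_, mul_ne_zero (mul_ne_zero P.ha0 P.hb0) P.hc0, P.hFLT⟩
  rw [Int.isCoprime_iff_gcd_eq_one]
  have h2 : ((Int.gcd P.a P.b : ℕ) : ℤ) = 1 := by
    rw [Int.coe_gcd]; exact P.hgcdab
  exact_mod_cast h2

open NumberField in
/-- There is no Frey package with exponent `11` (Kummer: `11` is regular, `ℤ[ζ₁₁]` is a PID). -/
theorem no_freyPackage_eleven (P : FreyPackage) (hp : P.p = 11) : False := by
  have : Fact (Nat.Prime 11) := ⟨by norm_num⟩
  have : IsCyclotomicExtension {11} ℚ (CyclotomicField 11 ℚ) :=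
    CyclotomicField.isCyclotomicExtension 11 ℚ
  have : IsPrincipalIdealRing (𝓞 (CyclotomicField 11 ℚ)) := eleven_pid _
  obtain ⟨hab, habc, h⟩ := freyPackage_data P
  rw [hp] at h
  exact flt_of_caseI (p := 11) caseI_eleven (by decide) (CyclotomicField 11 ℚ)
    (fun u hu => kummer_lemma_of_pid (by decide) u hu) hab habc h

theorem result (P : FreyPackage) (hp : P.p = 11) : ¬ HasGaloisStableCofixedLine (K := AlgebraicClosure ℚ) ℚ P.freyCurve P.p := by
  intro _
  exact no_freyPackage_eleven P hp

end Fermat.Agent.S11
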