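-- Statement S14: ExtVanishingCts p for every odd prime p.
import Fermat.Statements.S14
import Fermat.Agent.S14.Plumbing
import Fermat.Agent.S14.TheoremM

set_option autoImplicit false
open ExtCitation

namespace Fermat.Agent.S14

theorem result {p : ℕ} [Fact p.Prime] (h3 : 3 ≤ p) :
    ExtCitation.ExtVanishingCts p := by
  intro V _ _ _ _ C hadm
  have hp2 : p ≠ 2 := by omega
  rcases plumbing h3 V C hadm with h | ⟨L, _, _, _, ζ, hζ, hdeg, hunr, hact⟩
  · exact h
  · exact (no_omega_inv_extension hp2 L ζ hζ hdeg hunr hact).elim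

end Fermat.Agent.S14
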