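import Fermat.Statements.S19
import Fermat.Agent.FF.Top
import Fermat.Agent.FF.LevelSpec
import Fermat.Agent.FF.Lit
import Fermat.Agent.FF.Order.SubQuot
import Fermat.Agent.FF.Desc.Top
import Fermat.Agent.FF.Core.AllSpare

set_option autoImplicit false
open ModularCurve
open ModularCurve

namespace Fermat.Agent.S19

theorem result
    (p : ℕ) [NeZero p] (ℓ : ℕ) [Fact ℓ.Prime] (hℓp : ¬ ℓ ∣ p) (k : ℕ) :
    ∃ (H : Type) (_ : CommRing H) (_ : HopfAlgebra (GaloisRep.ratLocalizedAt ℓ) H),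
      Module.Finite (GaloisRep.ratLocalizedAt ℓ) H ∧ Module.Flat (GaloisRep.ratLocalizedAt ℓ) H ∧
      Coalgebra.IsCocomm (GaloisRep.ratLocalizedAt ℓ) H ∧
      ∃ e : WithConv (H →ₐ[GaloisRep.ratLocalizedAt ℓ] AlgebraicClosure ℚ) ≃
          ↥(Submodule.torsionBy ℤ (JZero p) ((ℓ : ℤ) ^ k)),
        (∀ f g, e (f * g) = e f + e g) ∧
        ∀ (σ : AlgebraicClosure ℚ ≃ₐ[ℚ] AlgebraicClosure ℚ)
          (f g : WithConv (H →ₐ[GaloisRep.ratLocalizedAt ℓ] AlgebraicClosure ℚ)),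
          (∀ h : H, g h = σ (f h)) → ((e g : JZero p)) = σ • (e f : JZero p) :=
  Fermat.Agent.FF.fftp_s19 ℓ (Fermat.Agent.FF.ffho_lit ℓ) (Fermat.Agent.FF.ffds_spec ℓ)
    (Fermat.Agent.FF.ffcz_all ℓ) (Fermat.Agent.FF.ffsq_sub (ℓ := ℓ))
    (Fermat.Agent.FF.ffsq_quot (ℓ := ℓ)) p hℓp k
    (fun h5 hd => ⟨(Fermat.Agent.FF.fflq_spec_small p h5 hℓp hd k).1,
      (Fermat.Agent.FF.fflq_spec_small p h5 hℓp hd k).2.2.2⟩)

end Fermat.Agent.S19
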