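import Fermat.Statements.S22
import Fermat.Agent.S23.Main
import Fermat.Agent.S23.HeckeFinite

set_option autoImplicit false
open CuspForm

namespace Fermat.Agent.S22

theorem result (N : ℕ) [NeZero N] (k : ℤ) (S : Set ℕ) :
    Module.Finite ℤ (CuspForm.heckeAlgebra N k S) := by
  rcases le_or_gt k 0 with hk | hk
  · have : Subsingleton (CuspForm (CongruenceSubgroup.Gamma0 N) k) :=
      ⟨fun a b => by
        rw [Fermat.Agent.S23.cuspForm_eq_zero_of_weight_nonpos N hk a,
          Fermat.Agent.S23.cuspForm_eq_zero_of_weight_nonpos N hk b]⟩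
    have : Subsingleton (Module.End ℂ (CuspForm (CongruenceSubgroup.Gamma0 N) k)) :=
      ⟨fun a b => LinearMap.ext fun x => Subsingleton.elim _ _⟩
    have : Subsingleton (CuspForm.heckeAlgebra N k S) :=
      ⟨fun a b => Subtype.ext (Subsingleton.elim _ _)⟩
    infer_instance
  · exact Fermat.Agent.S23.moduleFinite_heckeAlgebra_of_hasIntegralStructure N k (by omega) S
      (Fermat.Agent.S23.hasIntegralStructure N k)

end Fermat.Agent.S22
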