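import Fermat.Statements.S28
import Fermat.Agent.S28.Glue
import Fermat.Agent.S28.TensorDomainSpec
import Fermat.Agent.S28.BasicSpec
import Fermat.Agent.S28.ChartRedSpec

set_option autoImplicit false
open AlgebraicGeometry CategoryTheory CategoryTheory.Limits ModularCurve ModularCurve.IgusaScheme
noncomputable section
set_option autoImplicit false
open ModularCurve ModularCurve.IgusaScheme

namespace Fermat.Agent.S28

set_option maxHeartbeats 4000000 in
set_option synthInstance.maxHeartbeats 400000 in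
theorem result
    (N : ℕ) [NeZero N] (ℓ : ℕ) [Fact ℓ.Prime] (hℓN : ¬ ℓ ∣ N)
    (K : Type) [Field K] [CharP K ℓ] [Algebra ↥(GaloisRep.ratLocalizedAt ℓ) K] :
    IsIntegral ↑(pullback (igusaTo N ℓ)
      (Spec.map (CommRingCat.ofHom (algebraMap ↥(GaloisRep.ratLocalizedAt ℓ) K)))) := by
  obtain ⟨ρ₁, h1a, h1b, h1c⟩ := exists_redFin N ℓ hℓN
  obtain ⟨ρ₂, h2a, h2b⟩ := exists_redInf N ℓ hℓN
  have hi : ∀ r : Zl ℓ, (ZMod.castHom (dvd_refl ℓ) K) (zlRed ℓ r) = algebraMap (Zl ℓ) K r := by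
    intro r
    exact RingHom.congr_fun
      (zl_ringHom_ext ℓ ((ZMod.castHom (dvd_refl ℓ) K).comp (zlRed ℓ)) (algebraMap (Zl ℓ) K)) r
  have hFin : IsDomain (TensorProduct ↥(GaloisRep.ratLocalizedAt ℓ) ↥(chartAlgFin N ℓ) K) :=
    isDomain_tensor_of_qRed (zlRed ℓ) (zlRed_surjective ℓ) (ZMod.castHom (dvd_refl ℓ) K) hi
      ρ₁ h1a h1b
  have hInf : IsDomain (TensorProduct ↥(GaloisRep.ratLocalizedAt ℓ) ↥(chartAlgInf N ℓ) K) :=
    isDomain_tensor_of_qRed (zlRed ℓ) (zlRed_surjective ℓ) (ZMod.castHom (dvd_refl ℓ) K) hi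
      ρ₂ h2a h2b
  have hMid : Nontrivial (TensorProduct ↥(GaloisRep.ratLocalizedAt ℓ) ↥(chartAlgMid N ℓ) K) := by
    letI := (inclFin N ℓ).toRingHom.toAlgebra
    haveI := isLocalization_away_inclFin N ℓ
    haveI : IsScalarTower ↥(GaloisRep.ratLocalizedAt ℓ) ↥(chartAlgFin N ℓ) ↥(chartAlgMid N ℓ) :=
      IsScalarTower.of_algebraMap_eq fun r => ((inclFin N ℓ).commutes r).symm
    exact nontrivial_tensor_away_of_qRed (zlRed ℓ) (ZMod.castHom (dvd_refl ℓ) K) hi ρ₁ h1a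
      (jChartFin N ℓ) h1c
  exact isIntegral_pullback_igusaTo N ℓ K hFin hInf hMid

end Fermat.Agent.S28
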