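-- Statement S33 (row 32): `CuspForm.HeckeGaloisRepDatum.isOrdinaryAt_of_primeFactors_subset`.
-- Program TT: S33 ⟸ leaf (RED2) alone (`ttp_s33_of_red2`, TT/P0/Close.lean);
-- (RED2) at `p ≥ 5` : `ttra_red2_j_closed` (TT/Red2/Red2J.lean, inside `ttra_red2_all_of_h`);
-- (RED2) at `p = 3` : `ttrhd_red2_h` (TT/Red2/Red2HDry.lean).
import Fermat.Statements.S33
import Fermat.Agent.TT.P0.Close
import Fermat.Agent.TT.Red2.Red2Final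
import Fermat.Agent.TT.Red2.Red2HDry

set_option autoImplicit false
variable {p : ℕ} {N : ℕ} [NeZero N] {S : Finset ℕ}
  {𝒪 : Type} [CommRing 𝒪] [IsDomain 𝒪] [IsDiscreteValuationRing 𝒪]
  [IsAdicComplete (IsLocalRing.maximalIdeal 𝒪) 𝒪]
  {θ : CuspForm.heckeAlgebra N 2 (↑S : Set ℕ) →+* IsLocalRing.ResidueField 𝒪}
  {T : Type} [CommRing T] [IsLocalRing T] [IsNoetherianRing T]
  [IsAdicComplete (IsLocalRing.maximalIdeal T) T] [Algebra 𝒪 T] [IsLocalHom (algebraMap 𝒪 T)]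
  [Module.Finite 𝒪 T] [Module.Free 𝒪 T]
open CuspForm CuspForm.HeckeGaloisRepDatum

namespace Fermat.Agent.S33

theorem result
    [Finite (IsLocalRing.ResidueField 𝒪)] [CharZero 𝒪]
    (hp : p.Prime) (hp2 : p ≠ 2) (hp𝒪 : (p : 𝒪) ∈ IsLocalRing.maximalIdeal 𝒪) (hN : p ∣ N ∧ ¬ p ^ 2 ∣ N)
    (hNS : ∀ q : ℕ, q.Prime → q ∣ N → q ∈ S)
    (H : CuspForm.HeckeGaloisRepDatum N (↑S : Set ℕ) 𝒪 θ T)
    (hres : (GaloisRepAdic.ofResidualGaloisRep H.ρ.residual).IsOrdinaryAt p) :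
    H.ρ.IsOrdinaryAt p :=
  Fermat.Agent.TT.ttp_s33_of_red2 hp hp2 hp𝒪 hN hNS H hres
    (Fermat.Agent.TT.ttra_red2_all_of_h hp hp2 (fun M _ _ hpM h2M 𝔸 h𝔸 => by
      have : Fact (Nat.Prime 3) := ⟨by norm_num⟩
      exact Fermat.Agent.TT.ttrhd_red2_h M 𝔸 hpM h𝔸 rfl h2M))

end Fermat.Agent.S33
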