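-- Statement S37 (ModularCurve.specializationExists_JZero): Program G, packages G/Red (reduction of
-- places), G/Kron (Kronecker congruence on divisors), G/Conj, G/FF, S18, S54; top in G/S37/Top.lean.
import Fermat.Statements.S37
import Fermat.Agent.G.S37.Top

set_option autoImplicit false
open ModularCurve

namespace Fermat.Agent.S37

theorem result (N p : ℕ) [NeZero N] (hcomm : ModularCurve.HeckeOperatorsCommuteBar N) : letI := ModularCurve.heckeModuleBar N; ∀ (_ : SMulCommClass (AlgebraicClosure ℚ ≃ₐ[ℚ] AlgebraicClosure ℚ) ModularCurve.HeckeAlg (ModularCurve.JZero N)), ModularCurve.SpecializationExists (K := ℚ) (L := AlgebraicClosure ℚ) N p (ModularCurve.JZero N) :=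
  Fermat.Agent.G37.g37_result N p hcomm

end Fermat.Agent.S37
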