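-- Statement S42 (row 40): EigenformResidualAttachmentAt for every level.
-- Program G: S29 (G/Asm/Main29.lean) + finite level of the Frey representation (G/Asm/Main42.lean).
import Fermat.Statements.S42
import Fermat.Agent.G.Asm.Main42

set_option autoImplicit false
open FreyPackage

namespace Fermat.Agent.S42

theorem result (P : FreyPackage) :
    ∀ M : ℕ, 0 < M → P.EigenformResidualAttachmentAt M :=
  Fermat.Agent.G.gasm_S42 P

end Fermat.Agent.S42
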