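import Fermat.Statements.S49
import Fermat.Agent.S49.Core
import Fermat.Agent.S49.Cong
import Fermat.Agent.S49.Eigen

set_option autoImplicit false
open CuspForm EisensteinWeightOne CongruenceSubgroup ModularFormClass
open FLT FLT.AbstractIntegralStructure

namespace Fermat.Agent.S49

theorem result
    {N : ℕ} [NeZero N] (h : CuspForm.HasIntegralBasis N) {a : ℕ → ℤ}
    (heig : FormalHecke.IsEigensystem
      (fun ℓ => if ℓ ∣ N then 0 else ((chiNegThree ℓ : ℤ) : ℤ)) a)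
    (hreal : CuspForm.IsLatticeRealized N a) :
    ∃ (f : CuspForm (Gamma0 N) 2) (_ : f.IsNormalizedEigenform)
      (𝔪' : Ideal (integralClosure ℤ ℂ)), 𝔪'.IsMaximal ∧
      ((3 : ℕ) : integralClosure ℤ ℂ) ∈ 𝔪' ∧
      ∀ (ℓ : ℕ) (_ : ℓ.Prime) (_ : ¬ ℓ ∣ N),
        ∃ c : integralClosure ℤ ℂ, (c : ℂ) = ModularFormClass.qCoeff f ℓ ∧
          c - (a ℓ : integralClosure ℤ ℂ) ∈ 𝔪' := by
  classical
  obtain ⟨f₀, hf₀, af, haf, hcong0⟩ := hreal
  have hf₀L : f₀ ∈ CuspForm.intLattice N 2 := (mem_qIntegralSet_iff f₀).mp hf₀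
  have hcong : ∀ n, (3 : ℤ) ∣ af n - a n := by
    intro n
    have := dvd_add (hcong0 n) (bridge_coeff_mod_three a n)
    simpa using this
  have hI : ideal3 f₀ ≠ ⊤ := by
    rw [Ne, Ideal.eq_top_iff_one]
    exact one_notMem_ideal3 heig.1 haf hcong
  obtain ⟨m, hmmax, hIm⟩ := Ideal.exists_le_maximal _ hI
  haveI : m.IsPrime := hmmax.isPrime
  obtain ⟨v, χ, hv, hχ, hker⟩ := exists_eigen_character (rho N) rho_injective m
  haveI := moduleFinite_hecke h
  have hint : ∀ t : HT N, χ t ∈ integralClosure ℤ ℂ := fun t =>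
    map_isIntegral_int χ (Algebra.IsIntegral.isIntegral t)
  let χ' : HT N →+* integralClosure ℤ ℂ := χ.codRestrict (integralClosure ℤ ℂ) hint
  have hχ' : ∀ t, ((χ' t : integralClosure ℤ ℂ) : ℂ) = χ t := fun t => rfl
  letI : Algebra (HT N) (integralClosure ℤ ℂ) := χ'.toAlgebra
  haveI : Algebra.IsIntegral (HT N) (integralClosure ℤ ℂ) :=
    ⟨fun x => IsIntegral.tower_top (R := ℤ) (integralClosure.isIntegral x)⟩
  have hker' : RingHom.ker (algebraMap (HT N) (integralClosure ℤ ℂ)) ≤ m := by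
    intro t ht
    apply hker
    have h0 : χ' t = 0 := ht
    rw [← hχ', h0]
    rfl
  obtain ⟨Q, hQmax, hQ⟩ := Ideal.exists_ideal_over_maximal_of_isIntegral m hker'
  have hmemQ : ∀ t : HT N, t ∈ ideal3 f₀ → χ' t ∈ Q := by
    intro t ht
    have : t ∈ Q.comap (algebraMap (HT N) (integralClosure ℤ ℂ)) := by
      rw [hQ]; exact hIm ht
    exact this
  obtain ⟨g, hg, hgcoeff⟩ := exists_normalized_eigenform hv hχ
  refine ⟨g, hg, Q, hQmax, ?_, ?_⟩
  · have := hmemQ 3 (three_mem_ideal3 hf₀L)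
    rw [map_ofNat] at this
    exact_mod_cast this
  · intro ℓ hℓ hℓN
    refine ⟨χ' (CuspForm.heckeAlgebra.T hℓ hℓN (Set.notMem_empty ℓ)), ?_, ?_⟩
    · rw [hχ', hgcoeff ℓ hℓ hℓN]
    · have := hmemQ _ (T_sub_mem_ideal3 heig haf hcong hℓ hℓN)
      rw [map_sub, eq_intCast, map_intCast] at this
      exact this

end Fermat.Agent.S49
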