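-- Statement S51 (row 45): a semistable elliptic curve over ℚ has an irreducible mod 3 or mod 5
-- Galois representation (the 3-5 switch input), via the rational points of X₀(15).
import Fermat.Statements.S51
import Fermat.Agent.S51.ModThree
import Fermat.Agent.S51.ModFive
import Fermat.Agent.S51.SValues
import Fermat.Agent.S51.Finish

set_option autoImplicit false
open WeierstrassCurve WeierstrassCurve.Affine WeierstrassCurve.Affine.Point
open CuspForm ModularFormClass UpperHalfPlane
open WeierstrassCurve

namespace Fermat.Agent.S51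

theorem result (W : WeierstrassCurve ℤ) (hΔ : W.Δ ≠ 0) (hW : W.IsSemistableModel) : W.ModRepIsIrreducible 3 ∨ W.ModRepIsIrreducible 5 := by
  by_contra hcon
  rw [not_or] at hcon
  obtain ⟨t, ht0, ht⟩ := exists_param_three W hΔ hcon.1
  obtain ⟨s, hs0, hs⟩ := exists_param_five W hΔ hcon.2
  have hΔq : (W.Δ : ℚ) ≠ 0 := by exact_mod_cast hΔ
  have hF : s * (t + 27) * (t + 3) ^ 3 - (s ^ 2 + 10 * s + 5) ^ 3 * t = 0 := by
    have : (W.Δ : ℚ) * (s * (t + 27) * (t + 3) ^ 3 - (s ^ 2 + 10 * s + 5) ^ 3 * t) = 0 := by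
      linear_combination t * hs - s * ht
    exact (mul_eq_zero.mp this).resolve_left hΔq
  have hsv := s_values t s hs0 hF
  refine semistable_contra W.c₄ W.Δ hW s ?_ hs
  rcases hsv with h | h | h | h
  · exact Or.inr (Or.inr (Or.inr h))
  · exact Or.inr (Or.inl h)
  · exact Or.inl h
  · exact Or.inr (Or.inr (Or.inl h))

end Fermat.Agent.S51
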