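-- Statement S52 (row 46): the 3-5 switch.  Program U:
-- leaves (E) WE.we_leaf_five, (J) u5j_leafJ, (F) u5f_fam u5g_leafMult, (G+H) u5_leaf_hit u5h_hit u5g_leafGen
-- (assembled in U5/S52Pre.lean) and the Klein leaf (U1) u5kg_klein (U5/KL/Final.lean).
import Fermat.Statements.S52
import Fermat.Agent.U5.S52Pre
import Fermat.Agent.U5.KL.Final

set_option autoImplicit false
open WeierstrassCurve WeierstrassCurve.Affine WeierstrassCurve.Affine.Point
open CuspForm ModularFormClass UpperHalfPlane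
open WeierstrassCurve

namespace Fermat.Agent.S52

theorem result (W : WeierstrassCurve ℤ) (hΔ : W.Δ ≠ 0) (hW : W.IsSemistableModel) (h5 : W.ModRepIsIrreducible 5) : ∃ W' : WeierstrassCurve ℤ, W'.Δ ≠ 0 ∧ W'.IsSemistableModel ∧ W'.ModRepIsIrreducible 3 ∧ ∀ ℓ : ℕ, ℓ.Prime → W.IsGoodPrimeFor ℓ → W'.IsGoodPrimeFor ℓ → ℓ ≠ 5 → (5 : ℤ) ∣ (W'.apOfModel ℓ - W.apOfModel ℓ) :=
  Fermat.Agent.U5.u5z_s52_of_klein Fermat.Agent.U5.u5kg_klein W hΔ hW h5

end Fermat.Agent.S52
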