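import Fermat.Statements.S57
import Fermat.Agent.S57.LevelFree

set_option autoImplicit false
set_option linter.unusedSectionVars false
open Algebra Algebra.PatchingLevel

namespace Fermat.Agent.S57

section

variable {𝒪 : Type} [CommRing 𝒪] [IsDomain 𝒪] [IsDiscreteValuationRing 𝒪]
    {r : ℕ} {R : Type} [CommRing R] [Algebra 𝒪 R]
    {M : Type} [AddCommGroup M] [Module R M] [Nontrivial M]
    (L : Algebra.PatchingLevel 𝒪 r R M ⊥)

/-- The relation ideal `I = (φ X₁, …, φ X_r)`. -/
noncomputable def relIdeal : Ideal (MvPowerSeries (Fin r) 𝒪) :=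
  Ideal.span (Set.range fun i : Fin r => L.φ (MvPowerSeries.X i))

lemma relIdeal_le_ker : relIdeal L ≤ RingHom.ker L.ψ := by
  rw [relIdeal, Ideal.span_le]
  rintro _ ⟨i, rfl⟩
  exact L.ψ_φ_X i

lemma repr_mem_of_mem_smul_top {ι : Type} (β : Module.Basis ι (MvPowerSeries (Fin r) 𝒪) L.N)
    (I : Ideal (MvPowerSeries (Fin r) 𝒪)) (x : L.N)
    (hx : x ∈ I • (⊤ : Submodule (MvPowerSeries (Fin r) 𝒪) L.N)) (k : ι) :
    β.repr x k ∈ I := by
  refine Submodule.smul_induction_on hx ?_ ?_
  · intro t ht n _
    rw [map_smul, Finsupp.smul_apply, smul_eq_mul]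
    exact I.mul_mem_right _ ht
  · intro x y hx hy
    rw [map_add, Finsupp.add_apply]
    exact I.add_mem hx hy

lemma mem_relIdeal_of_forall_smul_mem (f : MvPowerSeries (Fin r) 𝒪)
    (hf : ∀ x : L.N, L.π (f • x) = 0) : f ∈ relIdeal L := by
  have hfree := level_free L
  have := level_nontrivial_N L
  let β := Module.Free.chooseBasis (MvPowerSeries (Fin r) 𝒪) L.N
  obtain ⟨k⟩ : Nonempty (Module.Free.ChooseBasisIndex (MvPowerSeries (Fin r) 𝒪) L.N) :=
    β.index_nonempty
  have h1 : f • β k ∈ relIdeal L • (⊤ : Submodule (MvPowerSeries (Fin r) 𝒪) L.N) :=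
    (L.ker_π _).mp (hf (β k))
  have h2 := repr_mem_of_mem_smul_top L β (relIdeal L) _ h1 k
  rw [map_smul, Finsupp.smul_apply, Module.Basis.repr_self, Finsupp.single_eq_same, smul_eq_mul,
    mul_one] at h2
  exact h2

end

theorem result
    {𝒪 : Type} [CommRing 𝒪] [IsDomain 𝒪] [IsDiscreteValuationRing 𝒪]
    {r : ℕ} {R : Type} [CommRing R] [Algebra 𝒪 R]
    {M : Type} [AddCommGroup M] [Module R M] [Nontrivial M]
    (L : Algebra.PatchingLevel 𝒪 r R M ⊥) :
    Module.Free R M ∧ Module.annihilator R M = ⊥ ∧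
      RingHom.ker L.ψ = Ideal.span (Set.range fun i : Fin r => L.φ (MvPowerSeries.X i)) := by
  have hker : RingHom.ker L.ψ = relIdeal L := by
    apply le_antisymm
    · intro f hf
      apply mem_relIdeal_of_forall_smul_mem L f
      intro x
      rw [L.π_smul, (RingHom.mem_ker).mp hf, zero_smul]
    · exact relIdeal_le_ker L
  refine ⟨?_, ?_, hker⟩
  · -- freeness
    have hfree := level_free L
    have := level_nontrivial_N L
    have := level_finite L
    let β := Module.Free.chooseBasis (MvPowerSeries (Fin r) 𝒪) L.N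
    have hli : LinearIndependent R (fun k => L.π (β k)) := by
      rw [Fintype.linearIndependent_iff]
      intro g hg k
      choose f hf using fun k => L.ψ_surjective (g k)
      have hx : L.π (∑ k, f k • β k) = 0 := by
        rw [map_sum, ← hg]
        refine Finset.sum_congr rfl fun k _ => ?_
        rw [L.π_smul, hf]
      have h1 := (L.ker_π _).mp hx
      have h2 := repr_mem_of_mem_smul_top L β _ _ h1 k
      rw [Module.Basis.repr_sum_self] at h2
      have h3 := relIdeal_le_ker L h2
      rw [RingHom.mem_ker, hf] at h3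
      exact h3
    have hsp : ⊤ ≤ Submodule.span R (Set.range fun k => L.π (β k)) := by
      intro m _
      obtain ⟨x, rfl⟩ := L.π_surjective m
      rw [← β.sum_repr x, map_sum]
      refine Submodule.sum_mem _ fun k _ => ?_
      rw [L.π_smul]
      exact Submodule.smul_mem _ _ (Submodule.subset_span ⟨k, rfl⟩)
    exact Module.Free.of_basis (Module.Basis.mk hli hsp)
  · -- faithfulness
    rw [eq_bot_iff]
    intro a ha
    obtain ⟨f, rfl⟩ := L.ψ_surjective a
    have hf : f ∈ relIdeal L := by
      apply mem_relIdeal_of_forall_smul_mem L f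
      intro x
      rw [L.π_smul]
      exact Module.mem_annihilator.mp ha _
    exact (RingHom.mem_ker).mp (relIdeal_le_ker L hf)

end Fermat.Agent.S57
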