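-- Statement S58 (row 52): conductor-level matching. W-side local input + transport (helper23: S58/{Transport,Tors,Node,Root,Loc,Main}),
-- eigencharacter / coefficient-ring inputs (helper12: S58/Inputs), Weil bound + Frobenius lift on torsion (helper6: WE/*, S58/{Stab,NewExtract}),
-- fed with S35 (Frobenius charpoly at q || M) and the hres-free core of S36 (no unipotent inertia at q^2 || M).
import Fermat.Statements.S58
import Fermat.Agent.S58.Main
import Fermat.Agent.S58.Inputs
import Fermat.Agent.S35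
import Fermat.Agent.SQ.Conc.S36Of
import Fermat.Agent.SQ.Conc.GeoJ
import Fermat.Agent.SQ.Conc.GeoH

set_option autoImplicit false
open WeierstrassCurve

namespace Fermat.Agent.S58

theorem result
    (W : WeierstrassCurve ℤ) (hss : W.IsSemistableModel) (N : ℕ)
    (p : ℕ) [Fact p.Prime] (hp2 : p ≠ 2) (hirr : W.ModRepIsIrreducible p)
    (hp2N : ¬ p ^ 2 ∣ N)
    (hN : W.IsModularModelOfLevel N) (hbad : ∀ ℓ : ℕ, ℓ.Prime → (ℓ : ℤ) ∣ W.Δ → ℓ ∣ N)
    (hN3 : ∀ q : ℕ, q.Prime → ¬ q ^ 3 ∣ N) :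
    W.IsModularModelOfLevel W.conductorLevel :=
  Fermat.Agent.S58.s58_main (fun hg lam _ S => Fermat.Agent.S58.s58in_exists hg lam S)
    @Fermat.Agent.S35.result
    (fun hg lam _ S O1 _ _ _ _ _ _ hlamO _hlam2 chig hchig iota hlamS hMS =>
      Fermat.Agent.SQ.sqcs_s36_of_geoAll
        (Fermat.Agent.SQ.sqcc_geoAll_of_branches Fermat.Agent.SQ.sqcc_geoJ Fermat.Agent.SQ.sqcc_geoH)
        hg lam S O1 hlamO chig hchig iota hlamS hMS)
    W hss N hN hbad hN3

end Fermat.Agent.S58
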